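import Fermat.Agent.S55.GT.H849.PITNorm

/-!
# Principal ideal theorem of group theory (helper849)

For a finite group `G`, the transfer `G → G' / G''` is trivial
(Furtwängler; proof after Witt, via the group ring and a determinant).
-/

namespace Fermat.Agent.S55.GT.H849

open MonoidAlgebra

noncomputable section

variable {G : Type*} [Group G]

section Det

variable [Fintype G] [DecidableEq G]

lemma pitKappa_surjective : Function.Surjective (pitKappa G) := by
  intro q
  obtain ⟨g, hg⟩ := QuotientGroup.mk_surjective (s := commutator G) (Additive.toMul q)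
  refine ⟨Pi.single g 1, ?_⟩
  rw [pitKappa_single, one_smul]
  exact congrArg Additive.ofMul hg

lemma pitKappa_ker_index : (pitKappa G).ker.index = Nat.card (Abelianization G) := by
  rw [AddSubgroup.index_ker, AddMonoidHom.range_eq_top.mpr pitKappa_surjective]
  rw [Nat.card_congr (AddSubgroup.topEquiv (G := Additive (Abelianization G))).toEquiv]
  exact Nat.card_congr Additive.toMul

/-- A square matrix of relations whose augmentation matrix has determinant `± |G^ab|`. -/
theorem exists_relation_matrix :
    ∃ μ : G → G → MonoidAlgebra ℤ G,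
      (∀ i, ∑ k : G, pitDl k * μ i k = 0) ∧
      (Matrix.det (Matrix.of fun i k => pitAugQ G (pitPi G (μ i k)))).natAbs
        = Nat.card (Abelianization G) := by
  set K : AddSubgroup (G → ℤ) := (pitKappa G).ker with hK
  have : Finite (Abelianization G) := inferInstanceAs (Finite (G ⧸ commutator G))
  have : K.FiniteIndex := ⟨by rw [hK, pitKappa_ker_index]; exact Nat.card_pos.ne'⟩
  have : Module.Free ℤ K := inferInstanceAs (Module.Free ℤ (AddSubgroup.toIntSubmodule K))
  have : Module.Finite ℤ K := inferInstanceAs (Module.Finite ℤ (AddSubgroup.toIntSubmodule K))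
  have hrank : Module.finrank ℤ K = Fintype.card G := by
    rw [AddSubgroup.finrank_eq_of_finiteIndex K, Module.finrank_pi]
  have hcard : Fintype.card (Module.Free.ChooseBasisIndex ℤ K) = Fintype.card G := by
    rw [← Module.finrank_eq_card_chooseBasisIndex, hrank]
  let b : Module.Basis G ℤ K :=
    (Module.Free.chooseBasis ℤ K).reindex (Fintype.equivOfCardEq hcard)
  have hidx := AddSubgroup.index_eq_natAbs_det (Pi.basisFun ℤ G) K b
  have hmem : ∀ i, ((b i : K) : G → ℤ) ∈ pitSolAug G := fun i => pitKappa_ker_le (b i).2
  choose μ h1 h2 using hmem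
  refine ⟨μ, h1, ?_⟩
  have e : (Matrix.of fun i k => pitAugQ G (pitPi G (μ i k)))
      = Matrix.of (fun i => ((b i : K) : G → ℤ)) := by
    ext i k
    simp only [Matrix.of_apply]
    exact h2 i k
  rw [e, ← Pi.basisFun_det_apply, ← hidx, hK, pitKappa_ker_index]

end Det

/-- The key membership: `δ j * N ∈ I_G * I_{G'}`. -/
theorem pitDl_mul_pitNorm_mem [Finite G] (j : G) :
    pitDl j * pitNorm (commutator G) ∈ pitJ (commutator G) := by
  classical
  have : Fintype G := Fintype.ofFinite G
  let _ : Fintype (Abelianization G) := (commutator G).fintypeQuotientOfFiniteIndex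
  obtain ⟨μ, hrel, hdet⟩ := exists_relation_matrix (G := G)
  set Bm : Matrix G G (MonoidAlgebra ℤ (Abelianization G)) :=
    Matrix.of fun i k => pitPi G (μ i k) with hBm
  set d : MonoidAlgebra ℤ (Abelianization G) := Bm.det with hd
  set Adj : Matrix G G (MonoidAlgebra ℤ (Abelianization G)) := (Bm.transpose).adjugate with hAdj
  have hadj : Bm.transpose * Adj = d • (1 : Matrix G G (MonoidAlgebra ℤ (Abelianization G))) := by
    rw [hAdj, Matrix.mul_adjugate, Matrix.det_transpose]
  -- (★)
  have star : ∀ j : G, pitDl j * pitSec G d ∈ pitJ (commutator G) := by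
    intro j
    let y : G → MonoidAlgebra ℤ G := fun k =>
      (∑ i : G, μ i k * pitSec G (Adj i j)) - (if k = j then pitSec G d else 0)
    have hy : ∀ k, pitPi G (y k) = 0 := by
      intro k
      have h := congrFun (congrFun hadj k) j
      rw [Matrix.mul_apply, Matrix.smul_apply, Matrix.one_apply, smul_eq_mul] at h
      simp only [y, map_sub, map_sum, map_mul, pitPi_pitSec]
      have h' : (∑ i : G, pitPi G (μ i k) * Adj i j) = d * (if k = j then 1 else 0) := by
        rw [← h]
        refine Finset.sum_congr rfl fun i _ => ?_
        simp [hBm, Matrix.transpose_apply]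
      rw [h']
      split_ifs
      · rw [pitPi_pitSec, mul_one, sub_self]
      · rw [map_zero, mul_zero, sub_self]
    have h0 : ∑ k : G, pitDl k * (∑ i : G, μ i k * pitSec G (Adj i j)) = 0 := by
      simp only [Finset.mul_sum, ← mul_assoc]
      rw [Finset.sum_comm]
      simp only [← Finset.sum_mul, hrel, zero_mul, Finset.sum_const_zero]
    have h1 : pitDl j * pitSec G d = - ∑ k : G, pitDl k * y k := by
      simp only [y, mul_sub, Finset.sum_sub_distrib, h0, zero_sub, neg_neg]
      simp [mul_ite, Finset.sum_ite_eq']
    rw [h1]
    exact (pitJ (commutator G)).neg_mem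
      ((pitJ (commutator G)).sum_mem fun k _ => pitDl_mul_mem_of_pitPi_eq_zero k (hy k))
  -- invariance of `d`
  have hinv : ∀ q : Abelianization G, of ℤ (Abelianization G) q * d = d := by
    intro q
    obtain ⟨g, rfl⟩ := QuotientGroup.mk_surjective (s := commutator G) q
    have h := pitPi_eq_zero_of_mem (star g)
    rw [map_mul, pitPi_pitDl, pitPi_pitSec, sub_mul, one_mul, sub_eq_zero] at h
    exact h
  -- augmentation of `d`
  have haug : (pitAugQ G d).natAbs = Fintype.card (Abelianization G) := by
    rw [hd, RingHom.map_det, ← Nat.card_eq_fintype_card, ← hdet]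
    rfl
  have hN : pitNorm (commutator G) = pitSec G (pitNormQ G) := by
    rw [pitNormQ, map_sum]
    simp only [pitSec_of]
    rfl
  rcases Int.natAbs_eq (pitAugQ G d) with hc | hc
  · have hdN : d = (1 : ℤ) • pitNormQ G :=
      eq_smul_pitNormQ_of_invariant d 1 hinv (by rw [hc, haug, one_mul])
    rw [one_smul] at hdN
    rw [hN, ← hdN]
    exact star j
  · have hdN : d = (-1 : ℤ) • pitNormQ G :=
      eq_smul_pitNormQ_of_invariant d (-1) hinv (by rw [hc, haug]; ring)
    have : pitNormQ G = -d := by rw [hdN]; simp
    rw [hN, this, map_neg, mul_neg]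
    exact (pitJ (commutator G)).neg_mem (star j)

/-- **Principal ideal theorem of group theory** (Furtwängler): for a finite group `G`, the
transfer homomorphism from `G` to the abelianization of its commutator subgroup is trivial. -/
theorem principal_ideal_theorem (G : Type*) [Group G] [Finite G] :
    MonoidHom.transfer (Abelianization.of : commutator G →* Abelianization (commutator G)) = 1 := by
  ext g
  have h := transfer_eq_pitPhi (commutator G)
    (Abelianization.of : commutator G →* Abelianization (commutator G)) g
  rw [pitPhi_eq_zero_of_mem _ _ (pitDl_mul_pitNorm_mem g)] at h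
  rw [MonoidHom.one_apply]
  exact Additive.ofMul.injective h

/-- General target version: any homomorphism from the commutator subgroup to a commutative group
has trivial transfer. -/
theorem transfer_commutator_eq_one (G : Type*) [Group G] [Finite G] {A : Type*} [CommGroup A]
    (ϕ : commutator G →* A) : MonoidHom.transfer ϕ = 1 := by
  ext g
  have h := transfer_eq_pitPhi (commutator G) ϕ g
  rw [pitPhi_eq_zero_of_mem _ _ (pitDl_mul_pitNorm_mem g)] at h
  rw [MonoidHom.one_apply]
  exact Additive.ofMul.injective h

end

end Fermat.Agent.S55.GT.H849
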