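import Mathlib

/-!
# Principal ideal theorem of group theory — part 1 (helper849)

Group-ring description of the transfer: for `H ≤ G` of finite index, `ϕ : H →* A`,
`transfer ϕ g = Φ (δ g * N)` where `Φ : ℤ[G] →+ Additive A` kills `I_G * I_H`.
-/

namespace Fermat.Agent.S55.GT.H849

open MonoidAlgebra

noncomputable section

variable {G : Type*} [Group G]

/-- `pitDl g = [g] - 1` in the group ring. -/
def pitDl (g : G) : MonoidAlgebra ℤ G := of ℤ G g - 1

lemma pitDl_one : pitDl (1 : G) = 0 := by rw [pitDl, map_one, sub_self]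

lemma pitDl_mul (g h : G) : pitDl (g * h) = pitDl g * of ℤ G h + pitDl h := by
  simp only [pitDl, map_mul]; noncomm_ring

lemma of_mul_pitDl (g h : G) : of ℤ G g * pitDl h = pitDl (g * h) - pitDl g := by
  simp only [pitDl, map_mul]; noncomm_ring

lemma pitDl_mul_of (g h : G) : pitDl g * of ℤ G h = pitDl (g * h) - pitDl h := by
  simp only [pitDl, map_mul]; noncomm_ring

variable (H : Subgroup G)

/-- The additive span of the products `δ g * δ τ`, `g ∈ G`, `τ ∈ H` (this is `I_G * I_H`). -/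
def pitJ : AddSubgroup (MonoidAlgebra ℤ G) :=
  AddSubgroup.closure {x | ∃ (g : G) (τ : H), x = pitDl g * pitDl (τ : G)}

lemma pitDl_mul_pitDl_mem (g : G) (τ : H) : pitDl g * pitDl (τ : G) ∈ pitJ H :=
  AddSubgroup.subset_closure ⟨g, τ, rfl⟩

/-- The `H`-part of `x` with respect to the section `Quotient.out`. -/
def pitHpart (x : G) : H :=
  ⟨(Quotient.out (x : G ⧸ H))⁻¹ * x, by
    rw [← QuotientGroup.eq]; exact QuotientGroup.out_eq' _⟩

lemma pitHpart_mul (x : G) (τ : H) : pitHpart H (x * τ) = pitHpart H x * τ := by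
  apply Subtype.ext
  have h : ((x * (τ : G) : G) : G ⧸ H) = (x : G ⧸ H) := by
    rw [QuotientGroup.eq]; simp
  simp only [pitHpart, h, Subgroup.coe_mul, mul_assoc]

lemma pitHpart_out (q : G ⧸ H) : pitHpart H (Quotient.out q) = 1 := by
  apply Subtype.ext
  simp [pitHpart]

lemma pitHpart_coe (τ : H) : pitHpart H (τ : G) = pitHpart H 1 * τ := by
  simpa using pitHpart_mul H 1 τ

variable {A : Type*} [CommGroup A] (ϕ : H →* A)

/-- The additive map `ℤ[G] → A`, `[x] ↦ ϕ (H-part of x)`. -/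
def pitPhi : MonoidAlgebra ℤ G →+ Additive A :=
  (Finsupp.liftAddHom (fun x : G =>
      (zmultiplesHom (Additive A)) (Additive.ofMul (ϕ (pitHpart H x))))).comp
    (coeffAddEquiv : MonoidAlgebra ℤ G ≃+ (G →₀ ℤ)).toAddMonoidHom

lemma pitPhi_of (x : G) :
    pitPhi H ϕ (of ℤ G x) = Additive.ofMul (ϕ (pitHpart H x)) := by
  simp [pitPhi, of, coeffAddEquiv]

lemma pitPhi_of_mul (x : G) (τ : H) :
    pitPhi H ϕ (of ℤ G (x * τ)) = pitPhi H ϕ (of ℤ G x) + Additive.ofMul (ϕ τ) := by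
  rw [pitPhi_of, pitPhi_of, pitHpart_mul, map_mul, ofMul_mul]

lemma pitPhi_pitDl_mul_pitDl (g : G) (τ : H) :
    pitPhi H ϕ (pitDl g * pitDl (τ : G)) = 0 := by
  have e : pitDl g * pitDl (τ : G)
      = of ℤ G (g * τ) - of ℤ G g - of ℤ G ((1 : G) * τ) + of ℤ G 1 := by
    simp only [pitDl, map_mul, map_one]; noncomm_ring
  rw [e, map_add, map_sub, map_sub, pitPhi_of_mul, pitPhi_of_mul]
  abel

lemma pitPhi_eq_zero_of_mem {x : MonoidAlgebra ℤ G} (hx : x ∈ pitJ H) : pitPhi H ϕ x = 0 := by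
  have : pitJ H ≤ (pitPhi H ϕ).ker := by
    rw [pitJ, AddSubgroup.closure_le]
    rintro _ ⟨g, τ, rfl⟩
    exact pitPhi_pitDl_mul_pitDl H ϕ g τ
  exact this hx

end

end Fermat.Agent.S55.GT.H849
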