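import Fermat.Agent.S55.GT.H849.PITTransfer

/-!
# Principal ideal theorem of group theory — part 3 (helper849)

The projection `π : ℤ[G] → ℤ[G^ab]`, its additive section `s`, and
`δ x * ker π ⊆ I_G * I_{G'}`.
-/

namespace Fermat.Agent.S55.GT.H849

open MonoidAlgebra

noncomputable section

variable (G : Type*) [Group G]

/-- The projection `ℤ[G] →+* ℤ[G^ab]`. -/
def pitPi : MonoidAlgebra ℤ G →+* MonoidAlgebra ℤ (Abelianization G) :=
  mapDomainRingHom ℤ (Abelianization.of : G →* Abelianization G)

/-- The additive section of `pitPi` induced by `Quotient.out`. -/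
def pitSec : MonoidAlgebra ℤ (Abelianization G) →+ MonoidAlgebra ℤ G where
  toFun := mapDomain (Quotient.out : G ⧸ commutator G → G)
  map_zero' := mapDomain_zero _
  map_add' := mapDomain_add _

variable {G}

lemma pitPi_of (g : G) : pitPi G (of ℤ G g) = of ℤ (Abelianization G) (Abelianization.of g) := by
  simp [pitPi, of_apply, mapDomainRingHom_apply, mapDomain_single]

lemma pitPi_pitDl (g : G) :
    pitPi G (pitDl g) = of ℤ (Abelianization G) (Abelianization.of g) - 1 := by
  rw [pitDl, map_sub, pitPi_of, map_one]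

lemma pitSec_of (q : Abelianization G) :
    pitSec G (of ℤ (Abelianization G) q) = of ℤ G (Quotient.out (q : G ⧸ commutator G)) := by
  simp only [pitSec, of_apply, AddMonoidHom.coe_mk, ZeroHom.coe_mk]
  exact mapDomain_single

lemma abOf_out (q : Abelianization G) :
    Abelianization.of (Quotient.out (q : G ⧸ commutator G)) = q :=
  QuotientGroup.out_eq' (s := commutator G) q

lemma pitPi_pitSec (z : MonoidAlgebra ℤ (Abelianization G)) : pitPi G (pitSec G z) = z := by
  induction z using MonoidAlgebra.induction_on with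
  | of q => rw [pitSec_of, pitPi_of, abOf_out]
  | add x y hx hy => rw [map_add, map_add, hx, hy]
  | smul r x hx => rw [map_zsmul, map_zsmul, hx]

lemma abOf_eq_one_of_mem {τ : G} (h : τ ∈ commutator G) : Abelianization.of τ = 1 := by
  rw [← MonoidHom.mem_ker, Abelianization.ker_of]; exact h

lemma pitPi_eq_zero_of_mem {x : MonoidAlgebra ℤ G} (hx : x ∈ pitJ (commutator G)) :
    pitPi G x = 0 := by
  have : pitJ (commutator G) ≤ (pitPi G).toAddMonoidHom.ker := by
    rw [pitJ, AddSubgroup.closure_le]
    rintro _ ⟨g, τ, rfl⟩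
    change pitPi G (pitDl g * pitDl (τ : G)) = 0
    rw [map_mul, pitPi_pitDl (τ : G), abOf_eq_one_of_mem τ.2, map_one, sub_self, mul_zero]
  exact this hx

/-- `δ x * (y - s (π y)) ∈ I_G * I_{G'}` for all `y`. -/
lemma pitDl_mul_sub_mem (x : G) (y : MonoidAlgebra ℤ G) :
    pitDl x * (y - pitSec G (pitPi G y)) ∈ pitJ (commutator G) := by
  induction y using MonoidAlgebra.induction_on with
  | of g =>
    rw [pitPi_of, pitSec_of]
    set ρ : G := Quotient.out ((Abelianization.of g : Abelianization G) : G ⧸ commutator G) with hρ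
    have hτ : ρ⁻¹ * g ∈ commutator G := (pitHpart (commutator G) g).2
    have e : pitDl x * (of ℤ G g - of ℤ G ρ)
        = pitDl (x * ρ) * pitDl (ρ⁻¹ * g) - pitDl ρ * pitDl (ρ⁻¹ * g) := by
      have hg : of ℤ G g = of ℤ G ρ * of ℤ G (ρ⁻¹ * g) := by
        rw [← map_mul, mul_inv_cancel_left]
      rw [hg]
      simp only [pitDl, map_mul]; noncomm_ring
    rw [e]
    exact (pitJ (commutator G)).sub_mem
      (pitDl_mul_pitDl_mem (commutator G) (x * ρ) ⟨_, hτ⟩)
      (pitDl_mul_pitDl_mem (commutator G) ρ ⟨_, hτ⟩)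
  | add y z hy hz =>
    have e : pitDl x * (y + z - pitSec G (pitPi G (y + z)))
        = pitDl x * (y - pitSec G (pitPi G y)) + pitDl x * (z - pitSec G (pitPi G z)) := by
      rw [map_add, map_add]; noncomm_ring
    rw [e]; exact (pitJ (commutator G)).add_mem hy hz
  | smul r y hy =>
    have e : pitDl x * (r • y - pitSec G (pitPi G (r • y)))
        = r • (pitDl x * (y - pitSec G (pitPi G y))) := by
      rw [map_zsmul, map_zsmul, ← smul_sub, mul_smul_comm]
    rw [e]; exact (pitJ (commutator G)).zsmul_mem hy r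

/-- `δ x * y ∈ I_G * I_{G'}` for `y ∈ ker π`. -/
lemma pitDl_mul_mem_of_pitPi_eq_zero (x : G) {y : MonoidAlgebra ℤ G} (hy : pitPi G y = 0) :
    pitDl x * y ∈ pitJ (commutator G) := by
  have := pitDl_mul_sub_mem x y
  rwa [hy, map_zero, sub_zero] at this

end

end Fermat.Agent.S55.GT.H849
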