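import Fermat.Agent.S55.GT.H849.PITRel

/-!
# Principal ideal theorem of group theory — part 5 (helper849)

Invariant elements of `ℤ[Q]` (`Q` a finite commutative group) are multiples of the norm element.
-/

namespace Fermat.Agent.S55.GT.H849

open MonoidAlgebra

noncomputable section

variable {G : Type*} [Group G]

/-- The norm element of `ℤ[G^ab]`. -/
def pitNormQ (G : Type*) [Group G] [Fintype (Abelianization G)] :
    MonoidAlgebra ℤ (Abelianization G) :=
  ∑ q : Abelianization G, of ℤ (Abelianization G) q

variable [Fintype (Abelianization G)]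

lemma of_mul_pitNormQ (q : Abelianization G) :
    of ℤ (Abelianization G) q * pitNormQ G = pitNormQ G := by
  simp only [pitNormQ, Finset.mul_sum, ← map_mul]
  exact Fintype.sum_equiv (Equiv.mulLeft q) _ _ fun x => rfl

lemma mul_pitNormQ (z : MonoidAlgebra ℤ (Abelianization G)) :
    z * pitNormQ G = pitAugQ G z • pitNormQ G := by
  induction z using MonoidAlgebra.induction_on with
  | of q => rw [of_mul_pitNormQ, pitAugQ_of, one_smul]
  | add x y hx hy => rw [add_mul, hx, hy, map_add, add_smul]
  | smul r x hx => rw [smul_mul_assoc, hx, map_zsmul, smul_eq_mul, mul_smul]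

lemma pitAugQ_pitNormQ : pitAugQ G (pitNormQ G) = Fintype.card (Abelianization G) := by
  rw [pitNormQ, map_sum]
  simp only [pitAugQ_of, Finset.sum_const, Finset.card_univ]
  simp

/-- An invariant element of `ℤ[G^ab]` whose augmentation is `c * |G^ab|` equals `c • N`. -/
lemma eq_smul_pitNormQ_of_invariant (d : MonoidAlgebra ℤ (Abelianization G)) (c : ℤ)
    (hinv : ∀ q : Abelianization G, of ℤ (Abelianization G) q * d = d)
    (haug : pitAugQ G d = c * Fintype.card (Abelianization G)) :
    d = c • pitNormQ G := by
  have hcard : ((Fintype.card (Abelianization G) : ℕ) : ℤ) ≠ 0 := by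
    exact_mod_cast Fintype.card_ne_zero
  have h1 : pitNormQ G * d = ((Fintype.card (Abelianization G) : ℕ) : ℤ) • d := by
    simp only [pitNormQ, Finset.sum_mul, hinv, Finset.sum_const, Finset.card_univ]
    rw [natCast_zsmul]
  have h2 : pitNormQ G * d = (c * ((Fintype.card (Abelianization G) : ℕ) : ℤ)) • pitNormQ G := by
    rw [mul_comm, mul_pitNormQ, haug]
  have h3 : ((Fintype.card (Abelianization G) : ℕ) : ℤ) • d
      = ((Fintype.card (Abelianization G) : ℕ) : ℤ) • (c • pitNormQ G) := by
    rw [← h1, h2, smul_smul, mul_comm]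
  exact smul_right_injective _ hcard h3

end

end Fermat.Agent.S55.GT.H849
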