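import Fermat.Agent.S55.GT.H849.PITKer

/-!
# Principal ideal theorem of group theory — part 4 (helper849)

Relations: every vector `m : G → ℤ` in the kernel of `ℤ^G → G^ab` is the augmentation vector of a
solution `μ` of `∑ k, δ k * μ k = 0` in `ℤ[G]`.
-/

namespace Fermat.Agent.S55.GT.H849

open MonoidAlgebra

noncomputable section

variable (G : Type*) [Group G]

/-- Augmentation `ℤ[G^ab] →+* ℤ`. -/
def pitAugQ : MonoidAlgebra ℤ (Abelianization G) →+* ℤ :=
  (MonoidAlgebra.lift ℤ ℤ (Abelianization G) (1 : Abelianization G →* ℤ)).toRingHom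

variable {G}

lemma pitAugQ_of (q : Abelianization G) : pitAugQ G (of ℤ (Abelianization G) q) = 1 := by
  simp [pitAugQ]

lemma pitAugQ_pitPi_of (g : G) : pitAugQ G (pitPi G (of ℤ G g)) = 1 := by
  rw [pitPi_of, pitAugQ_of]

variable [Fintype G] [DecidableEq G]

variable (G)

/-- The map `ℤ^G → G^ab`, `m ↦ ∑ g, m g • [g]`. -/
def pitKappa : (G → ℤ) →+ Additive (Abelianization G) :=
  ∑ g : G, (zmultiplesHom (Additive (Abelianization G))
    (Additive.ofMul (Abelianization.of g))).comp (Pi.evalAddMonoidHom (fun _ : G => ℤ) g)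

/-- The augmentation vectors of solutions of `∑ k, δ k * μ k = 0`. -/
def pitSolAug : AddSubgroup (G → ℤ) where
  carrier := {m | ∃ μ : G → MonoidAlgebra ℤ G,
    (∑ k : G, pitDl k * μ k) = 0 ∧ ∀ k, pitAugQ G (pitPi G (μ k)) = m k}
  zero_mem' := ⟨0, by simp, by simp⟩
  add_mem' := by
    rintro m m' ⟨μ, h1, h2⟩ ⟨μ', h1', h2'⟩
    refine ⟨μ + μ', ?_, fun k => ?_⟩
    · simp only [Pi.add_apply, mul_add, Finset.sum_add_distrib, h1, h1', add_zero]
    · simp only [Pi.add_apply, map_add, h2, h2']
  neg_mem' := by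
    rintro m ⟨μ, h1, h2⟩
    refine ⟨-μ, ?_, fun k => ?_⟩
    · simp only [Pi.neg_apply, mul_neg, Finset.sum_neg_distrib, h1, neg_zero]
    · simp only [Pi.neg_apply, map_neg, h2]

variable {G}

lemma pitKappa_single (i : G) (x : ℤ) :
    pitKappa G (Pi.single i x) = x • Additive.ofMul (Abelianization.of i) := by
  simp only [pitKappa, AddMonoidHom.finsetSum_apply, AddMonoidHom.comp_apply,
    Pi.evalAddMonoidHom_apply, zmultiplesHom_apply]
  rw [Finset.sum_eq_single i]
  · simp
  · intro b _ hb
    simp [Pi.single_eq_of_ne hb]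
  · simp

lemma pitGen_mem (g h : G) :
    (Pi.single (g * h) 1 - Pi.single g 1 - Pi.single h 1 : G → ℤ) ∈ pitSolAug G := by
  refine ⟨Pi.single (g * h) 1 - Pi.single g (of ℤ G h) - Pi.single h 1, ?_, fun k => ?_⟩
  · simp only [Pi.sub_apply, mul_sub, Finset.sum_sub_distrib]
    have e : ∀ (a : G) (r : MonoidAlgebra ℤ G),
        (∑ k : G, pitDl k * (Pi.single a r : G → MonoidAlgebra ℤ G) k) = pitDl a * r := by
      intro a r
      rw [Finset.sum_eq_single a]
      · simp
      · intro b _ hb
        simp [Pi.single_eq_of_ne hb]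
      · simp
    rw [e, e, e, pitDl_mul]
    noncomm_ring
  · simp only [Pi.sub_apply, map_sub]
    have e : ∀ (a : G) (r : MonoidAlgebra ℤ G),
        pitAugQ G (pitPi G ((Pi.single a r : G → MonoidAlgebra ℤ G) k))
          = (Pi.single a (pitAugQ G (pitPi G r)) : G → ℤ) k := by
      intro a r
      by_cases hk : k = a
      · subst hk; simp
      · simp [Pi.single_eq_of_ne hk]
    rw [e, e, e, pitAugQ_pitPi_of, map_one, map_one]

/-- The kernel of `ℤ^G → G^ab` consists of augmentation vectors of relations. -/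
theorem pitKappa_ker_le : (pitKappa G).ker ≤ pitSolAug G := by
  set C : AddSubgroup (G → ℤ) := AddSubgroup.closure
    {m | ∃ g h : G, m = Pi.single (g * h) 1 - Pi.single g 1 - Pi.single h 1} with hC
  have hCle : C ≤ pitSolAug G := by
    rw [hC, AddSubgroup.closure_le]
    rintro _ ⟨g, h, rfl⟩
    exact pitGen_mem g h
  refine le_trans ?_ hCle
  -- the homomorphism `G → (ℤ^G)/C`
  let f : G →* Multiplicative ((G → ℤ) ⧸ C) :=
    MonoidHom.mk' (fun g => Multiplicative.ofAdd (QuotientAddGroup.mk (Pi.single g 1 : G → ℤ)))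
      (fun g h => by
        rw [← ofAdd_add, ← QuotientAddGroup.mk_add]
        congr 1
        rw [QuotientAddGroup.eq]
        have : -(Pi.single (g * h) (1 : ℤ) : G → ℤ) + (Pi.single g 1 + Pi.single h 1)
            = -(Pi.single (g * h) 1 - Pi.single g 1 - Pi.single h 1) := by abel
        rw [this]
        exact C.neg_mem (AddSubgroup.subset_closure ⟨g, h, rfl⟩))
  let L : Additive (Abelianization G) →+ (G → ℤ) ⧸ C :=
    MonoidHom.toAdditiveLeft (Abelianization.lift f)
  have hL : L.comp (pitKappa G) = QuotientAddGroup.mk' C := by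
    apply AddMonoidHom.functions_ext
    intro i x
    rw [AddMonoidHom.comp_apply, pitKappa_single, map_zsmul]
    have h1 : L (Additive.ofMul (Abelianization.of i))
        = QuotientAddGroup.mk (Pi.single i 1 : G → ℤ) := by
      change Multiplicative.toAdd (Abelianization.lift f (Abelianization.of i)) = _
      rw [Abelianization.lift_apply_of]
      rfl
    rw [h1, QuotientAddGroup.mk'_apply, ← QuotientAddGroup.mk_zsmul]
    congr 1
    ext k
    by_cases hk : k = i
    · subst hk; simp
    · simp [Pi.single_eq_of_ne hk]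
  intro m hm
  have h0 : QuotientAddGroup.mk' C m = 0 := by
    rw [← hL, AddMonoidHom.comp_apply, AddMonoidHom.mem_ker.mp hm, map_zero]
  exact (QuotientAddGroup.eq_zero_iff m).mp h0

end

end Fermat.Agent.S55.GT.H849
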