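import Fermat.Agent.S55.GT.H849.PITBasic

/-!
# Principal ideal theorem of group theory — part 2 (helper849)

`transfer ϕ g = Φ (δ g * N)`.
-/

namespace Fermat.Agent.S55.GT.H849

open MonoidAlgebra

noncomputable section

variable {G : Type*} [Group G] (H : Subgroup G) {A : Type*} [CommGroup A] (ϕ : H →* A)

/-- The norm element `N = Σ_q [out q]` of the group ring, `q` running over `G ⧸ H`. -/
def pitNorm [H.FiniteIndex] : MonoidAlgebra ℤ G :=
  letI := H.fintypeQuotientOfFiniteIndex
  ∑ q : G ⧸ H, of ℤ G (Quotient.out q)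

lemma pitHpart_mul_out (g : G) (q : G ⧸ H) :
    ((pitHpart H (g * Quotient.out q) : H) : G) = (Quotient.out (g • q))⁻¹ * (g * Quotient.out q) := by
  have h : ((g * Quotient.out q : G) : G ⧸ H) = g • q := by
    conv_rhs => rw [← QuotientGroup.out_eq' q]
    rfl
  simp only [pitHpart, h]

theorem transfer_eq_pitPhi [H.FiniteIndex] (g : G) :
    Additive.ofMul (MonoidHom.transfer ϕ g) = pitPhi H ϕ (pitDl g * pitNorm H) := by
  classical
  let _ := H.fintypeQuotientOfFiniteIndex
  let T : H.LeftTransversal := ⟨Set.range (Quotient.out : G ⧸ H → G),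
    Subgroup.isComplement_range_left QuotientGroup.out_eq'⟩
  have hT : ∀ q : G ⧸ H, (T.2.leftQuotientEquiv q : G) = Quotient.out q := fun q =>
    Subgroup.IsComplement.leftQuotientEquiv_apply (f := (Quotient.out : G ⧸ H → G))
      QuotientGroup.out_eq' q
  have hgT : ∀ q : G ⧸ H, ((g • T).2.leftQuotientEquiv q : G)
      = g * Quotient.out (g⁻¹ • q) := fun q => by
    rw [Subgroup.smul_apply_eq_smul_apply_inv_smul, hT, smul_eq_mul]
  -- right-hand side
  have hR : pitPhi H ϕ (pitDl g * pitNorm H)
      = ∑ q : G ⧸ H, Additive.ofMul (ϕ (pitHpart H (g * Quotient.out q))) := by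
    have e : pitDl g * pitNorm H
        = ∑ q : G ⧸ H, (of ℤ G (g * Quotient.out q) - of ℤ G (Quotient.out q)) := by
      simp only [pitNorm, pitDl, Finset.mul_sum, map_mul, sub_mul, one_mul]
    rw [e, map_sum]
    refine Finset.sum_congr rfl fun q _ => ?_
    rw [map_sub, pitPhi_of, pitPhi_of, pitHpart_out, map_one, ofMul_one, sub_zero]
  rw [hR, MonoidHom.transfer_def ϕ T g]
  unfold Subgroup.leftTransversals.diff
  simp only [ofMul_prod]
  refine Fintype.sum_equiv (MulAction.toPerm g⁻¹) _ _ fun q => ?_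
  congr 2
  apply Subtype.ext
  simp only [MulAction.toPerm_apply]
  rw [pitHpart_mul_out, hT, hgT, smul_inv_smul]

end

end Fermat.Agent.S55.GT.H849
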